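import Mathlib

/-!
# Successive approximation along a complete filtration  (S55 toolkit, helper535)

The classical lemma behind the cohomological triviality of unit groups of local fields
(Serre, *Local Fields*, Ch. V §1 Lemma 2 and Ch. XII §3 Lemma 3), stated in the "Herbrand" style
(two composable homomorphisms with zero composite), with no category theory.

* `exact_of_graded_exact` (multiplicative), `add_exact_of_graded_exact` (additive):
  if `g : B → A`, `f : A → C` satisfy `f ∘ g = 1`, `B` is complete and `A` separated for decreasing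
  filtrations respected by `g`, and exactness holds "modulo the next step" on every graded piece,
  then `ker f = im g`.
-/

set_option autoImplicit false

namespace Fermat.Agent.S55.H535

section Mul

variable {A B C : Type*} [CommGroup A] [CommGroup B] [CommGroup C]

/-- A filtration `F` is *separated* if the only element lying in every step is `1`. -/
def MulSeparated (F : ℕ → Subgroup A) : Prop := ∀ x : A, (∀ n, x ∈ F n) → x = 1

/-- A filtration `F` is *product-complete* if every sequence `a n ∈ F n` has a "convergent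
infinite product": an element `s` with `s / ∏_{i<n} a i ∈ F n` for every `n`. -/
def MulComplete (F : ℕ → Subgroup B) : Prop :=
  ∀ a : ℕ → B, (∀ n, a n ∈ F n) → ∃ s : B, ∀ n, s / ∏ i ∈ Finset.range n, a i ∈ F n

/-- **Successive approximation.**  Let `g : B →* A` and `f : A →* C` with `f ∘ g = 1`.  Let `FA`,
`FB` be filtrations with `g (FB n) ⊆ FA n`, `FA` separated, `FB` product-complete.  If every
`x ∈ FA n ∩ ker f` can be corrected by some `g y`, `y ∈ FB n`, into `FA (n+1)`, then every
`x ∈ FA 0 ∩ ker f` is of the form `g y` with `y ∈ FB 0`. -/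
theorem exact_of_graded_exact
    (FA : ℕ → Subgroup A) (FB : ℕ → Subgroup B)
    (g : B →* A) (f : A →* C) (hfg : ∀ b, f (g b) = 1)
    (hg : ∀ n b, b ∈ FB n → g b ∈ FA n)
    (hsep : MulSeparated FA) (hcomp : MulComplete FB)
    (hgr : ∀ n x, x ∈ FA n → f x = 1 → ∃ y ∈ FB n, x / g y ∈ FA (n + 1))
    (x : A) (hx0 : x ∈ FA 0) (hx : f x = 1) : ∃ y ∈ FB 0, g y = x := by
  classical
  -- the recursion on pairs (level-`n` element of `ker f`)
  let P : ℕ → Type _ := fun n => {z : A // z ∈ FA n ∧ f z = 1}
  let corr : ∀ n, P n → B := fun n z => (hgr n z.1 z.2.1 z.2.2).choose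
  have hcorr : ∀ n (z : P n), corr n z ∈ FB n ∧ z.1 / g (corr n z) ∈ FA (n + 1) :=
    fun n z => (hgr n z.1 z.2.1 z.2.2).choose_spec
  let step : ∀ n, P n → P (n + 1) := fun n z =>
    ⟨z.1 / g (corr n z), (hcorr n z).2, by rw [map_div, z.2.2, hfg, div_one]⟩
  let seq : ∀ n, P n := fun n => Nat.rec (motive := P) ⟨x, hx0, hx⟩ step n
  let y : ℕ → B := fun n => corr n (seq n)
  have hy : ∀ n, y n ∈ FB n := fun n => (hcorr n (seq n)).1
  have hseq : ∀ n, (seq n).1 = x / g (∏ i ∈ Finset.range n, y i) := by
    intro n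
    induction n with
    | zero => simp [seq]
    | succ n ih =>
      have h1 : (seq (n + 1)).1 = (seq n).1 / g (y n) := rfl
      rw [h1, ih, Finset.prod_range_succ, map_mul, div_div]
  obtain ⟨s, hs⟩ := hcomp y hy
  refine ⟨s, by simpa using hs 0, ?_⟩
  have hmem : ∀ n, x / g s ∈ FA n := by
    intro n
    have h1 : x / g s = (seq n).1 / g (s / ∏ i ∈ Finset.range n, y i) := by
      rw [hseq n, map_div, div_div_div_cancel_right]
    rw [h1]
    exact (FA n).div_mem (seq n).2.1 (hg n _ (hs n))
  have := hsep _ hmem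
  exact (div_eq_one.1 this).symm

end Mul

section Add

variable {A B C : Type*} [AddCommGroup A] [AddCommGroup B] [AddCommGroup C]

/-- Additive version of `MulSeparated`. -/
def AddSeparated (F : ℕ → AddSubgroup A) : Prop := ∀ x : A, (∀ n, x ∈ F n) → x = 0

/-- Additive version of `MulComplete`: every series `∑ a n`, `a n ∈ F n`, converges. -/
def AddComplete (F : ℕ → AddSubgroup B) : Prop :=
  ∀ a : ℕ → B, (∀ n, a n ∈ F n) → ∃ s : B, ∀ n, s - ∑ i ∈ Finset.range n, a i ∈ F n

/-- Additive version of `exact_of_graded_exact`. -/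
theorem add_exact_of_graded_exact
    (FA : ℕ → AddSubgroup A) (FB : ℕ → AddSubgroup B)
    (g : B →+ A) (f : A →+ C) (hfg : ∀ b, f (g b) = 0)
    (hg : ∀ n b, b ∈ FB n → g b ∈ FA n)
    (hsep : AddSeparated FA) (hcomp : AddComplete FB)
    (hgr : ∀ n x, x ∈ FA n → f x = 0 → ∃ y ∈ FB n, x - g y ∈ FA (n + 1))
    (x : A) (hx0 : x ∈ FA 0) (hx : f x = 0) : ∃ y ∈ FB 0, g y = x := by
  classical
  let P : ℕ → Type _ := fun n => {z : A // z ∈ FA n ∧ f z = 0}
  let corr : ∀ n, P n → B := fun n z => (hgr n z.1 z.2.1 z.2.2).choose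
  have hcorr : ∀ n (z : P n), corr n z ∈ FB n ∧ z.1 - g (corr n z) ∈ FA (n + 1) :=
    fun n z => (hgr n z.1 z.2.1 z.2.2).choose_spec
  let step : ∀ n, P n → P (n + 1) := fun n z =>
    ⟨z.1 - g (corr n z), (hcorr n z).2, by rw [map_sub, z.2.2, hfg, sub_zero]⟩
  let seq : ∀ n, P n := fun n => Nat.rec (motive := P) ⟨x, hx0, hx⟩ step n
  let y : ℕ → B := fun n => corr n (seq n)
  have hy : ∀ n, y n ∈ FB n := fun n => (hcorr n (seq n)).1
  have hseq : ∀ n, (seq n).1 = x - g (∑ i ∈ Finset.range n, y i) := by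
    intro n
    induction n with
    | zero => simp [seq]
    | succ n ih =>
      have h1 : (seq (n + 1)).1 = (seq n).1 - g (y n) := rfl
      rw [h1, ih, Finset.sum_range_succ, map_add, sub_sub]
  obtain ⟨s, hs⟩ := hcomp y hy
  refine ⟨s, by simpa using hs 0, ?_⟩
  have hmem : ∀ n, x - g s ∈ FA n := by
    intro n
    have h1 : x - g s = (seq n).1 - g (s - ∑ i ∈ Finset.range n, y i) := by
      rw [hseq n, map_sub]
      abel
    rw [h1]
    exact (FA n).sub_mem (seq n).2.1 (hg n _ (hs n))
  have := hsep _ hmem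
  exact (sub_eq_zero.1 this).symm

end Add

end Fermat.Agent.S55.H535
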