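import Fermat.Agent.S55.H535.Filtration

/-!
# Cohomological triviality of `1 + M` for a complete filtered ring with cyclic action
(S55 toolkit, helper535)

`UnitSetup O` : a commutative ring `O` with an endomorphism `σ` of finite order `n`, a `σ`-fixed
element `π`, and a `σ`-stable additive subgroup `M` with `π M ⊆ M`, `M · M ⊆ π M`, `π` regular
on `M`, `M` separated and complete for the filtration `π^k M`.
(Examples: `O = 𝒪_L`, `M = π 𝒪_L` for an unramified extension `L/K` with uniformiser `π ∈ K`;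
`M = π^c Λ` for a normal-basis lattice `Λ` of an arbitrary cyclic extension of local fields.)
-/

set_option autoImplicit false

namespace Fermat.Agent.S55.H535

open Finset

variable {O : Type*} [CommRing O]

/-- The `k`-th step `π^k M` of the `π`-adic filtration of an additive subgroup `M`. -/
def piFil (π : O) (M : AddSubgroup O) (k : ℕ) : AddSubgroup O :=
  M.map (AddMonoidHom.mulLeft (π ^ k))

lemma mem_piFil {π : O} {M : AddSubgroup O} {k : ℕ} {x : O} :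
    x ∈ piFil π M k ↔ ∃ z ∈ M, π ^ k * z = x := by
  simp [piFil, AddSubgroup.mem_map]

/-- The data and hypotheses for the successive-approximation argument on `1 + M`. -/
structure UnitSetup (O : Type*) [CommRing O] where
  /-- the generator of the cyclic action -/
  σ : O →+* O
  /-- (a multiple of) the order of `σ` -/
  n : ℕ
  /-- the `σ`-fixed "uniformiser" -/
  π : O
  /-- the lattice -/
  M : AddSubgroup O
  iterate_σ : ∀ x, σ^[n] x = x
  σ_π : σ π = π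
  σ_mem : ∀ x ∈ M, σ x ∈ M
  π_mul_mem : ∀ x ∈ M, π * x ∈ M
  mul_mem : ∀ x ∈ M, ∀ y ∈ M, ∃ z ∈ M, x * y = π * z
  π_reg : ∀ x ∈ M, π * x = 0 → x = 0
  sep : AddSeparated (piFil π M)
  complete : AddComplete (piFil π M)

namespace UnitSetup

variable (S : UnitSetup O)

/-- The filtration `π^k M`. -/
abbrev F (k : ℕ) : AddSubgroup O := piFil S.π S.M k

lemma mem_F {k : ℕ} {x : O} : x ∈ S.F k ↔ ∃ z ∈ S.M, S.π ^ k * z = x := mem_piFil

lemma F_zero : S.F 0 = S.M := by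
  ext x
  simp [mem_piFil]

lemma pow_mul_mem_M (k : ℕ) {x : O} (hx : x ∈ S.M) : S.π ^ k * x ∈ S.M := by
  induction k with
  | zero => simpa using hx
  | succ k ih =>
    rw [pow_succ', mul_assoc]
    exact S.π_mul_mem _ ih

lemma pow_mul_mem (k : ℕ) {j : ℕ} {x : O} (hx : x ∈ S.F j) : S.π ^ k * x ∈ S.F (k + j) := by
  obtain ⟨z, hz, rfl⟩ := S.mem_F.1 hx
  exact S.mem_F.2 ⟨z, hz, by rw [pow_add, mul_assoc]⟩

lemma F_anti {j k : ℕ} (h : j ≤ k) : S.F k ≤ S.F j := by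
  intro x hx
  obtain ⟨z, hz, rfl⟩ := S.mem_F.1 hx
  obtain ⟨d, rfl⟩ := Nat.exists_eq_add_of_le h
  exact S.mem_F.2 ⟨S.π ^ d * z, S.pow_mul_mem_M d hz, by rw [pow_add, mul_assoc]⟩

lemma F_le_M (k : ℕ) : S.F k ≤ S.M := by
  rw [← S.F_zero]
  exact S.F_anti (Nat.zero_le k)

lemma mul_mem_F {i j : ℕ} {x y : O} (hx : x ∈ S.F i) (hy : y ∈ S.F j) :
    x * y ∈ S.F (i + j + 1) := by
  obtain ⟨a, ha, rfl⟩ := S.mem_F.1 hx
  obtain ⟨b, hb, rfl⟩ := S.mem_F.1 hy
  obtain ⟨z, hz, hab⟩ := S.mul_mem a ha b hb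
  refine S.mem_F.2 ⟨z, hz, ?_⟩
  have : S.π ^ i * a * (S.π ^ j * b) = S.π ^ (i + j) * (a * b) := by
    rw [pow_add]; ring
  rw [this, hab, pow_succ]
  ring

lemma mul_mem_F' {j : ℕ} {x y : O} (hx : x ∈ S.M) (hy : y ∈ S.F j) :
    x * y ∈ S.F (j + 1) := by
  have := S.mul_mem_F (i := 0) (by rwa [S.F_zero]) hy
  simpa using this

lemma iterate_σ_π (i : ℕ) : (S.σ)^[i] S.π = S.π := by
  induction i with
  | zero => rfl
  | succ i ih => rw [Function.iterate_succ_apply', ih, S.σ_π]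

lemma σ_mem_F {k : ℕ} {x : O} (hx : x ∈ S.F k) : S.σ x ∈ S.F k := by
  obtain ⟨z, hz, rfl⟩ := S.mem_F.1 hx
  exact S.mem_F.2 ⟨S.σ z, S.σ_mem z hz, by rw [map_mul, map_pow, S.σ_π]⟩

lemma pow_reg (k : ℕ) {x : O} (hx : x ∈ S.M) (h : S.π ^ k * x = 0) : x = 0 := by
  induction k with
  | zero => simpa using h
  | succ k ih =>
    apply ih
    apply S.π_reg _ (S.pow_mul_mem_M k hx)
    rw [← mul_assoc, ← pow_succ']
    exact h

lemma pow_cancel (k : ℕ) {x y : O} (hx : x ∈ S.M) (hy : y ∈ S.M)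
    (h : S.π ^ k * x = S.π ^ k * y) : x = y := by
  have := S.pow_reg k (S.M.sub_mem hx hy) (by rw [mul_sub, h, sub_self])
  exact sub_eq_zero.1 this

/-- Cancelling `π^k`: if `x ∈ M` and `π^k x ∈ π^(k+1) M` then `x ∈ π M`. -/
lemma mem_F_one_of_pow_mul {k : ℕ} {x : O} (hx : x ∈ S.M) (h : S.π ^ k * x ∈ S.F (k + 1)) :
    x ∈ S.F 1 := by
  obtain ⟨z, hz, hzx⟩ := S.mem_F.1 h
  rw [pow_succ, mul_assoc] at hzx
  have := S.pow_cancel k (S.π_mul_mem z hz) hx hzx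
  exact S.mem_F.2 ⟨z, hz, by simpa using this⟩

lemma sep_shift (k : ℕ) : AddSeparated (fun j => S.F (k + j)) := by
  intro x hx
  apply S.sep
  intro m
  exact S.F_anti (Nat.le_add_left m k) (hx m)

lemma complete_shift (k : ℕ) : AddComplete (fun j => S.F (k + j)) := by
  intro a ha
  choose z hz hza using fun j => S.mem_F.1 (ha j)
  obtain ⟨s, hs⟩ := S.complete (fun j => S.π ^ j * z j) (fun j => S.mem_F.2 ⟨z j, hz j, rfl⟩)
  refine ⟨S.π ^ k * s, fun j => ?_⟩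
  have : S.π ^ k * s - ∑ i ∈ range j, a i = S.π ^ k * (s - ∑ i ∈ range j, S.π ^ i * z i) := by
    rw [mul_sub, mul_sum]
    congr 1
    apply sum_congr rfl
    intro i _
    rw [← hza i, pow_add, mul_assoc]
  rw [this]
  exact S.pow_mul_mem k (hs j)

/-- Geometric series: `1 + a` is invertible for `a ∈ π^k M`, with inverse in `1 + π^k M`. -/
lemma exists_inv {k : ℕ} {a : O} (ha : a ∈ S.F k) : ∃ y ∈ S.F k, (1 + a) * (1 + y) = 1 := by
  have haM : a ∈ S.M := S.F_le_M k ha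
  obtain ⟨y, hy, hya⟩ := add_exact_of_graded_exact (fun j => S.F (k + j)) (fun j => S.F (k + j))
    (AddMonoidHom.mulLeft (1 + a)) (0 : O →+ O) (fun _ => rfl)
    (fun j b hb => by
      simp only [AddMonoidHom.coe_mulLeft, add_mul, one_mul]
      exact (S.F (k + j)).add_mem hb (S.F_anti (Nat.le_succ _) (S.mul_mem_F' haM hb)))
    (S.sep_shift k) (S.complete_shift k)
    (fun j x hx _ => ⟨x, hx, by
      simp only [AddMonoidHom.coe_mulLeft, add_mul, one_mul, sub_add_cancel_left]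
      exact (S.F (k + (j + 1))).neg_mem (S.mul_mem_F' haM hx)⟩)
    (-a) ((S.F k).neg_mem ha) rfl
  refine ⟨y, hy, ?_⟩
  simp only [AddMonoidHom.coe_mulLeft] at hya
  rw [mul_add, mul_one, hya]
  ring


/-! ### The unit groups `1 + π^k M` -/

/-- The subgroup `1 + π^k M` of the unit group of `O`. -/
def V (k : ℕ) : Subgroup Oˣ where
  carrier := {u | (u : O) - 1 ∈ S.F k}
  one_mem' := by
    show ((1 : Oˣ) : O) - 1 ∈ S.F k
    simp
  mul_mem' := by
    intro u v hu hv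
    show ((u * v : Oˣ) : O) - 1 ∈ S.F k
    have h : ((u * v : Oˣ) : O) - 1 = ((u : O) - 1) + ((v : O) - 1) + ((u : O) - 1) * ((v : O) - 1) := by
      push_cast; ring
    rw [h]
    exact (S.F k).add_mem ((S.F k).add_mem hu hv)
      (S.F_anti (Nat.le_succ k) (S.mul_mem_F' (S.F_le_M k hu) hv))
  inv_mem' := by
    intro u hu
    show ((u⁻¹ : Oˣ) : O) - 1 ∈ S.F k
    obtain ⟨y, hy, h⟩ := S.exists_inv hu
    have h' : (u : O) * (1 + y) = 1 := by simpa using h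
    have : ((u⁻¹ : Oˣ) : O) = 1 + y := by
      calc ((u⁻¹ : Oˣ) : O) = ((u⁻¹ : Oˣ) : O) * ((u : O) * (1 + y)) := by rw [h', mul_one]
        _ = 1 + y := by rw [← mul_assoc, Units.inv_mul, one_mul]
    rw [this]
    simpa using hy

lemma mem_V {k : ℕ} {u : Oˣ} : u ∈ S.V k ↔ (u : O) - 1 ∈ S.F k := Iff.rfl

lemma V_anti {j k : ℕ} (h : j ≤ k) : S.V k ≤ S.V j := fun _ hu => S.F_anti h hu

/-- Every `1 + a`, `a ∈ π^k M`, is a unit lying in `V k`. -/
lemma exists_unit {k : ℕ} {a : O} (ha : a ∈ S.F k) : ∃ u ∈ S.V k, (u : O) = 1 + a := by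
  obtain ⟨y, hy, h⟩ := S.exists_inv ha
  refine ⟨⟨1 + a, 1 + y, h, by rw [mul_comm]; exact h⟩, ?_, rfl⟩
  show (1 + a) - 1 ∈ S.F k
  simpa using ha

lemma V_mul_mem_F {j : ℕ} {u : Oˣ} (hu : u ∈ S.V 0) {x : O} (hx : x ∈ S.F j) :
    (u : O) * x ∈ S.F j := by
  have h : (u : O) * x = x + ((u : O) - 1) * x := by ring
  rw [h]
  exact (S.F j).add_mem hx (S.F_anti (Nat.le_succ j) (S.mul_mem_F' (S.F_le_M 0 hu) hx))

/-- Multiplicative and additive congruences modulo `π^k M` agree on `1 + M`. -/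
lemma div_mem_V_iff {k : ℕ} {u v : Oˣ} (hv : v ∈ S.V 0) :
    u / v ∈ S.V k ↔ (u : O) - v ∈ S.F k := by
  rw [mem_V]
  constructor
  · intro h
    have := S.V_mul_mem_F hv h
    have e : (v : O) * (((u / v : Oˣ) : O) - 1) = (u : O) - v := by
      rw [mul_sub, mul_one, ← Units.val_mul, mul_div_cancel]
    rwa [e] at this
  · intro h
    have := S.V_mul_mem_F ((S.V 0).inv_mem hv) h
    have e : ((v⁻¹ : Oˣ) : O) * ((u : O) - v) = ((u / v : Oˣ) : O) - 1 := by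
      rw [mul_sub, Units.inv_mul, div_eq_mul_inv, Units.val_mul, mul_comm]
    rwa [e] at this

lemma V_sep_shift (k : ℕ) : MulSeparated (fun j => S.V (k + j)) := by
  intro u hu
  have := S.sep_shift k ((u : O) - 1) hu
  exact Units.ext (sub_eq_zero.1 this)

lemma V_complete_shift (k : ℕ) : MulComplete (fun j => S.V (k + j)) := by
  intro a ha
  set p : ℕ → Oˣ := fun j => ∏ i ∈ range j, a i with hp
  have hpk : ∀ j, p j ∈ S.V k := fun j =>
    Subgroup.prod_mem _ (fun i _ => S.V_anti (Nat.le_add_right k i) (ha i))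
  have hp0 : ∀ j, p j ∈ S.V 0 := fun j => S.V_anti (Nat.zero_le k) (hpk j)
  have hstep : ∀ j, ((p (j + 1) : Oˣ) : O) - p j ∈ S.F (k + j) := by
    intro j
    have e : ((p (j + 1) : Oˣ) : O) - p j = (p j : O) * ((a j : O) - 1) := by
      simp only [hp, prod_range_succ, Units.val_mul]
      ring
    rw [e]
    exact S.V_mul_mem_F (hp0 j) (ha j)
  obtain ⟨s', hs'⟩ := S.complete_shift k (fun j => ((p (j + 1) : Oˣ) : O) - p j) hstep
  have htel : ∀ j, ∑ i ∈ range j, (((p (i + 1) : Oˣ) : O) - p i) = (p j : O) - 1 := by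
    intro j
    rw [sum_range_sub (fun i => ((p i : Oˣ) : O))]
    simp [hp]
  have hs'k : s' ∈ S.F k := by simpa using hs' 0
  obtain ⟨s, -, hs⟩ := S.exists_unit hs'k
  refine ⟨s, fun j => ?_⟩
  rw [S.div_mem_V_iff (hp0 j)]
  have := hs' j
  rw [htel j] at this
  have e : (s : O) - p j = s' - ((p j : O) - 1) := by rw [hs]; ring
  rw [e]
  exact this

/-! ### Norm and `σ - 1` on units -/

/-- `σ` on units. -/
def σu : Oˣ →* Oˣ := Units.map (S.σ : O →* O)

@[simp] lemma coe_σu (u : Oˣ) : ((S.σu u : Oˣ) : O) = S.σ u := rfl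

lemma coe_iterate_σu (i : ℕ) (u : Oˣ) : (((S.σu)^[i] u : Oˣ) : O) = (S.σ)^[i] u := by
  induction i with
  | zero => rfl
  | succ i ih => rw [Function.iterate_succ_apply', Function.iterate_succ_apply', coe_σu, ih]

lemma iterate_σu (u : Oˣ) : (S.σu)^[S.n] u = u :=
  Units.ext (by rw [coe_iterate_σu, S.iterate_σ])

/-- The trace `∑_{i<n} σ^i x`. -/
def Tr (x : O) : O := ∑ i ∈ range S.n, (S.σ)^[i] x

/-- The norm `∏_{i<n} σ^i x`. -/
def N (x : O) : O := ∏ i ∈ range S.n, (S.σ)^[i] x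

/-- The norm on units. -/
def Nu : Oˣ →* Oˣ where
  toFun u := ∏ i ∈ range S.n, (S.σu)^[i] u
  map_one' := by simp
  map_mul' u v := by
    rw [← prod_mul_distrib]
    exact prod_congr rfl (fun i _ => iterate_map_mul _ _ _ _)

/-- `u ↦ σ u / u` on units. -/
def Du : Oˣ →* Oˣ where
  toFun u := S.σu u / u
  map_one' := by simp
  map_mul' u v := by rw [map_mul, mul_div_mul_comm]

lemma Nu_apply (u : Oˣ) : S.Nu u = ∏ i ∈ range S.n, (S.σu)^[i] u := rfl

lemma Du_apply (u : Oˣ) : S.Du u = S.σu u / u := rfl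

lemma coe_Nu (u : Oˣ) : ((S.Nu u : Oˣ) : O) = S.N u := by
  rw [Nu_apply, N, Units.coe_prod]
  exact prod_congr rfl (fun i _ => S.coe_iterate_σu i u)

lemma σu_Nu (u : Oˣ) : S.σu (S.Nu u) = S.Nu u := by
  rw [Nu_apply, map_prod]
  have h1 : ∀ i, S.σu ((S.σu)^[i] u) = (S.σu)^[i + 1] u :=
    fun i => (Function.iterate_succ_apply' _ _ _).symm
  simp only [h1]
  have h2 := prod_range_succ (fun i => (S.σu)^[i] u) S.n
  have h3 := prod_range_succ' (fun i => (S.σu)^[i] u) S.n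
  rw [h3] at h2
  simp only [Function.iterate_zero, id_eq, S.iterate_σu] at h2
  exact mul_right_cancel h2

lemma Nu_σu (u : Oˣ) : S.Nu (S.σu u) = S.Nu u := by
  rw [← S.σu_Nu u, Nu_apply, Nu_apply, map_prod]
  apply prod_congr rfl
  intro i _
  rw [← Function.iterate_succ_apply, Function.iterate_succ_apply']

lemma Nu_Du (u : Oˣ) : S.Nu (S.Du u) = 1 := by
  rw [Du_apply, map_div, Nu_σu, div_self']

lemma Du_Nu (u : Oˣ) : S.Du (S.Nu u) = 1 := by
  rw [Du_apply, σu_Nu, div_self']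

lemma σu_mem_V {k : ℕ} {u : Oˣ} (hu : u ∈ S.V k) : S.σu u ∈ S.V k := by
  rw [mem_V] at hu ⊢
  have := S.σ_mem_F hu
  rwa [map_sub, map_one] at this

lemma iterate_σu_mem_V {k : ℕ} {u : Oˣ} (hu : u ∈ S.V k) (i : ℕ) : (S.σu)^[i] u ∈ S.V k := by
  induction i with
  | zero => exact hu
  | succ i ih =>
    rw [Function.iterate_succ_apply']
    exact S.σu_mem_V ih

lemma Nu_mem_V {k : ℕ} {u : Oˣ} (hu : u ∈ S.V k) : S.Nu u ∈ S.V k :=
  Subgroup.prod_mem _ (fun i _ => S.iterate_σu_mem_V hu i)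

lemma Du_mem_V {k : ℕ} {u : Oˣ} (hu : u ∈ S.V k) : S.Du u ∈ S.V k :=
  (S.V k).div_mem (S.σu_mem_V hu) hu

lemma iterate_σ_mem {x : O} (hx : x ∈ S.M) (i : ℕ) : (S.σ)^[i] x ∈ S.M := by
  induction i with
  | zero => exact hx
  | succ i ih =>
    rw [Function.iterate_succ_apply']
    exact S.σ_mem _ ih

lemma Tr_mem {x : O} (hx : x ∈ S.M) : S.Tr x ∈ S.M :=
  AddSubgroup.sum_mem _ (fun i _ => S.iterate_σ_mem hx i)

/-- First-order expansion of a product: `∏ (1 + π^k x_i) ≡ 1 + π^k ∑ x_i  mod π^(k+1) M`. -/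
lemma prod_one_add (k : ℕ) (x : ℕ → O) (hx : ∀ i, x i ∈ S.M) (m : ℕ) :
    ∏ i ∈ range m, (1 + S.π ^ k * x i) - 1 - S.π ^ k * ∑ i ∈ range m, x i ∈ S.F (k + 1) := by
  induction m with
  | zero => simp
  | succ m ih =>
    have hS : ∑ i ∈ range m, x i ∈ S.M := AddSubgroup.sum_mem _ (fun i _ => hx i)
    have hxm : S.π ^ k * x m ∈ S.F k := S.mem_F.2 ⟨x m, hx m, rfl⟩
    have hSm : S.π ^ k * ∑ i ∈ range m, x i ∈ S.F k := S.mem_F.2 ⟨_, hS, rfl⟩
    have e : ∏ i ∈ range (m + 1), (1 + S.π ^ k * x i) - 1 - S.π ^ k * ∑ i ∈ range (m + 1), x i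
        = (∏ i ∈ range m, (1 + S.π ^ k * x i) - 1 - S.π ^ k * ∑ i ∈ range m, x i)
          + (S.π ^ k * ∑ i ∈ range m, x i) * (S.π ^ k * x m)
          + (∏ i ∈ range m, (1 + S.π ^ k * x i) - 1 - S.π ^ k * ∑ i ∈ range m, x i)
            * (S.π ^ k * x m) := by
      rw [prod_range_succ, sum_range_succ]
      ring
    rw [e]
    refine (S.F (k + 1)).add_mem ((S.F (k + 1)).add_mem ih ?_) ?_
    · exact S.F_anti (by omega) (S.mul_mem_F hSm hxm)
    · exact S.F_anti (by omega) (S.mul_mem_F ih hxm)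

lemma N_one_add (k : ℕ) {x : O} (hx : x ∈ S.M) :
    S.N (1 + S.π ^ k * x) - 1 - S.π ^ k * S.Tr x ∈ S.F (k + 1) := by
  have := S.prod_one_add k (fun i => (S.σ)^[i] x) (fun i => S.iterate_σ_mem hx i) S.n
  have e : ∀ i, (S.σ)^[i] (1 + S.π ^ k * x) = 1 + S.π ^ k * (S.σ)^[i] x := by
    intro i
    have h1 : ∀ y : O, (S.σ)^[i] y = ((S.σ) ^ i : O →+* O) y := by
      intro y
      induction i with
      | zero => rfl
      | succ i ih => rw [Function.iterate_succ_apply', ih, pow_succ']; rfl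
    rw [h1, h1, map_add, map_one, map_mul, map_pow, ← h1 S.π, S.iterate_σ_π]
  unfold N Tr
  simp only [e]
  exact this


/-! ### Main theorems -/

/-- Write an element of `V k` as `1 + π^k x` with `x ∈ M`. -/
lemma exists_eq_one_add {k : ℕ} {u : Oˣ} (hu : u ∈ S.V k) :
    ∃ x ∈ S.M, (u : O) = 1 + S.π ^ k * x := by
  obtain ⟨x, hx, h⟩ := S.mem_F.1 hu
  exact ⟨x, hx, by rw [h]; ring⟩

/-- **`Ĥ⁰(1 + π^k M) = 0`.**  If every `σ`-fixed element of `M` is a trace modulo `π M`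
(e.g. if `Ĥ⁰(M / π M) = 0`), then every `σ`-fixed unit in `1 + π^k M` is the norm of a unit
in `1 + π^k M`. -/
theorem exists_Nu_eq
    (h0 : ∀ x ∈ S.M, S.σ x = x → ∃ y ∈ S.M, x - S.Tr y ∈ S.F 1)
    {k : ℕ} {u : Oˣ} (hu : u ∈ S.V k) (hσ : S.σu u = u) : ∃ v ∈ S.V k, S.Nu v = u := by
  have key := exact_of_graded_exact (fun j => S.V (k + j)) (fun j => S.V (k + j))
    S.Nu S.Du S.Du_Nu (fun j b hb => S.Nu_mem_V hb) (S.V_sep_shift k) (S.V_complete_shift k)
    ?_ u (by simpa using hu) (by rw [Du_apply, hσ, div_self'])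
  · simpa using key
  · intro j w hw hDw
    have hσw : S.σu w = w := by
      rw [Du_apply] at hDw
      exact div_eq_one.1 hDw
    obtain ⟨x, hx, hwx⟩ := S.exists_eq_one_add hw
    have hσx : S.σ x = x := by
      have h1 : S.σ (w : O) = w := by rw [← coe_σu, hσw]
      rw [hwx, map_add, map_one, map_mul, map_pow, S.σ_π] at h1
      exact S.pow_cancel (k + j) (S.σ_mem x hx) hx (add_left_cancel h1)
    obtain ⟨y, hy, hxy⟩ := h0 x hx hσx
    obtain ⟨v, hv, hvy⟩ := S.exists_unit (S.mem_F.2 ⟨y, hy, rfl⟩ : S.π ^ (k + j) * y ∈ S.F (k + j))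
    refine ⟨v, hv, ?_⟩
    rw [S.div_mem_V_iff (S.V_anti (Nat.zero_le _) (S.Nu_mem_V hv)), coe_Nu, hvy, hwx]
    have hN := S.N_one_add (k + j) hy
    have e : 1 + S.π ^ (k + j) * x - S.N (1 + S.π ^ (k + j) * y)
        = S.π ^ (k + j) * (x - S.Tr y)
          - (S.N (1 + S.π ^ (k + j) * y) - 1 - S.π ^ (k + j) * S.Tr y) := by ring
    rw [e]
    exact (S.F (k + (j + 1))).sub_mem (S.pow_mul_mem (k + j) hxy) hN

/-- **`Ĥ¹(1 + π^k M) = 0`** (Hilbert 90 for `1 + π^k M`).  If every element of `M` whose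
trace lies in `π M` is of the form `σ y - y` modulo `π M` (i.e. `Ĥ⁻¹(M / π M) = 0`), then every
unit of norm `1` in `1 + π^k M` is of the form `σ v / v` with `v ∈ 1 + π^k M`. -/
theorem exists_Du_eq
    (h1 : ∀ x ∈ S.M, S.Tr x ∈ S.F 1 → ∃ y ∈ S.M, x - (S.σ y - y) ∈ S.F 1)
    {k : ℕ} {u : Oˣ} (hu : u ∈ S.V k) (hN : S.Nu u = 1) : ∃ v ∈ S.V k, S.Du v = u := by
  have key := exact_of_graded_exact (fun j => S.V (k + j)) (fun j => S.V (k + j))
    S.Du S.Nu S.Nu_Du (fun j b hb => S.Du_mem_V hb) (S.V_sep_shift k) (S.V_complete_shift k)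
    ?_ u (by simpa using hu) hN
  · simpa using key
  · intro j w hw hNw
    obtain ⟨x, hx, hwx⟩ := S.exists_eq_one_add hw
    have hTr : S.Tr x ∈ S.F 1 := by
      apply S.mem_F_one_of_pow_mul (k := k + j) (S.Tr_mem hx)
      have hN1 : S.N (1 + S.π ^ (k + j) * x) = 1 := by
        rw [← hwx, ← coe_Nu, hNw, Units.val_one]
      have := S.N_one_add (k + j) hx
      rw [hN1, sub_self, zero_sub] at this
      simpa using (S.F (k + j + 1)).neg_mem this
    obtain ⟨y, hy, hxy⟩ := h1 x hx hTr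
    obtain ⟨v, hv, hvy⟩ := S.exists_unit (S.mem_F.2 ⟨y, hy, rfl⟩ : S.π ^ (k + j) * y ∈ S.F (k + j))
    refine ⟨v, hv, ?_⟩
    have hv0 : v ∈ S.V 0 := S.V_anti (Nat.zero_le _) hv
    rw [S.div_mem_V_iff (S.Du_mem_V hv0)]
    -- multiply by `v`
    have hmul : (v : O) * ((w : O) - (S.Du v : Oˣ)) ∈ S.F (k + (j + 1)) := by
      have e : (v : O) * ((w : O) - (S.Du v : Oˣ))
          = S.π ^ (k + j) * (x - (S.σ y - y))
            + (S.π ^ (k + j) * y) * (S.π ^ (k + j) * x) := by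
        have e1 : (v : O) * ((S.Du v : Oˣ) : O) = S.σ v := by
          rw [← coe_σu, ← Units.val_mul, Du_apply, mul_div_cancel]
        rw [mul_sub, e1, hvy, hwx, map_add, map_one, map_mul, map_pow, S.σ_π]
        ring
      rw [e]
      refine (S.F _).add_mem (S.pow_mul_mem (k + j) hxy) ?_
      exact S.F_anti (by omega)
        (S.mul_mem_F (S.mem_F.2 ⟨y, hy, rfl⟩ : S.π ^ (k + j) * y ∈ S.F (k + j))
          (S.mem_F.2 ⟨x, hx, rfl⟩ : S.π ^ (k + j) * x ∈ S.F (k + j)))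
    have := S.V_mul_mem_F ((S.V 0).inv_mem hv0) hmul
    rwa [← mul_assoc, Units.inv_mul, one_mul] at this

/-- Element-level form of `exists_Nu_eq` (`k = 0`). -/
theorem exists_norm_eq
    (h0 : ∀ x ∈ S.M, S.σ x = x → ∃ y ∈ S.M, x - S.Tr y ∈ S.F 1)
    {u : O} (hu : u - 1 ∈ S.M) (hσ : S.σ u = u) : ∃ v, v - 1 ∈ S.M ∧ S.N v = u := by
  have hu' : u - 1 ∈ S.F 0 := by rwa [S.F_zero]
  obtain ⟨w, hw, hwu⟩ := S.exists_unit hu'
  have hwu' : (w : O) = u := by rw [hwu]; ring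
  obtain ⟨v, hv, hNv⟩ := S.exists_Nu_eq h0 hw (Units.ext (by rw [coe_σu, hwu', hσ]))
  refine ⟨v, ?_, by rw [← coe_Nu, hNv, hwu']⟩
  rw [← S.F_zero]
  exact hv

/-- Element-level form of `exists_Du_eq` (`k = 0`). -/
theorem exists_mul_eq
    (h1 : ∀ x ∈ S.M, S.Tr x ∈ S.F 1 → ∃ y ∈ S.M, x - (S.σ y - y) ∈ S.F 1)
    {u : O} (hu : u - 1 ∈ S.M) (hN : S.N u = 1) : ∃ v, v - 1 ∈ S.M ∧ S.σ v = u * v := by
  have hu' : u - 1 ∈ S.F 0 := by rwa [S.F_zero]
  obtain ⟨w, hw, hwu⟩ := S.exists_unit hu'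
  have hwu' : (w : O) = u := by rw [hwu]; ring
  obtain ⟨v, hv, hDv⟩ := S.exists_Du_eq h1 hw
    (Units.ext (by rw [coe_Nu, hwu', hN, Units.val_one]))
  refine ⟨v, ?_, ?_⟩
  · rw [← S.F_zero]
    exact hv
  · rw [← hwu', ← hDv, ← coe_σu, ← Units.val_mul, Du_apply, div_mul_cancel]

end UnitSetup

end Fermat.Agent.S55.H535
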